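/-
MAZ programme (S15), moduli side, brick BR1 (helper55): the bridge between the lattice invariants
of Mathlib's `PeriodPair` (`g₂`, `g₃`, discriminant `g₂³ - 27 g₃²`, `j`) and the modular forms
`E₄`, `E₆`, `Δ` / the analytic `j`-function `X0.jFun`:

* `latDisc L = g₂(L)³ - 27 g₃(L)²`, `latJ L = 1728 g₂³ / latDisc`; both depend only on the lattice;
* `latDisc_pairOfUHP : latDisc (ℤτ + ℤ) = (2π)¹² Δ(τ)`;
* `latDisc_scalePair`, `latJ_scalePair` (homogeneity of degree `-12` resp. `0`);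
* `latJ_pairOfUHP : latJ (ℤτ + ℤ) = j(τ)`; `curve_j : (Unif18.curve L).j = latJ L`;
* the `p`-isogenous lattice `isogPair u p τ = (u/p)·(ℤ pτ + ℤ) = u·(ℤτ + ℤ) + ℤ·(u/p)`:
  `Δ(τ)/Δ(pτ) = p¹² latDisc(L)/latDisc(L')` and `j(pτ) = latJ L'`, for `L'` ANY period pair whose
  lattice is `L + ℤ·(u/p)`.
-/
import Fermat.Agent.X0.LatticeEis
import Fermat.Agent.X0.JBasic
import Fermat.Agent.X0.AnDefs
import Fermat.Agent.MAZ.Unif91.ExistsLattice
import Fermat.Agent.MAZ.Unif18.ToPoint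

set_option autoImplicit false

open UpperHalfPlane ModularForm EisensteinSeries
open Fermat.Agent.X0 Fermat.Agent.X0.LatticeEis
open scoped Real

noncomputable section

namespace Fermat.Agent.MAZ.BR1_55

local notation "Δ" => ModularForm.discriminant

/-! ### lattice invariants -/

/-- The discriminant `g₂³ - 27 g₃²` of a period lattice. -/
def latDisc (L : PeriodPair) : ℂ := L.g₂ ^ 3 - 27 * L.g₃ ^ 2

/-- The `j`-invariant `1728 g₂³ / (g₂³ - 27 g₃²)` of a period lattice. -/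
def latJ (L : PeriodPair) : ℂ := 1728 * L.g₂ ^ 3 / latDisc L

theorem latDisc_def (L : PeriodPair) : latDisc L = L.g₂ ^ 3 - 27 * L.g₃ ^ 2 := rfl

theorem latJ_def (L : PeriodPair) : latJ L = 1728 * L.g₂ ^ 3 / (L.g₂ ^ 3 - 27 * L.g₃ ^ 2) := rfl

/-- The Eisenstein sums depend only on the lattice. -/
theorem G_congr {L₁ L₂ : PeriodPair} (h : L₁.lattice = L₂.lattice) (n : ℕ) : L₁.G n = L₂.G n := by
  unfold PeriodPair.G
  have e : (L₁.lattice : Set ℂ) = L₂.lattice := by rw [h]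
  exact (Equiv.setCongr e).tsum_eq (fun l : L₂.lattice => ((l : ℂ) ^ n)⁻¹)

theorem g₂_congr {L₁ L₂ : PeriodPair} (h : L₁.lattice = L₂.lattice) : L₁.g₂ = L₂.g₂ := by
  unfold PeriodPair.g₂; rw [G_congr h]

theorem g₃_congr {L₁ L₂ : PeriodPair} (h : L₁.lattice = L₂.lattice) : L₁.g₃ = L₂.g₃ := by
  unfold PeriodPair.g₃; rw [G_congr h]

theorem latDisc_congr {L₁ L₂ : PeriodPair} (h : L₁.lattice = L₂.lattice) :
    latDisc L₁ = latDisc L₂ := by
  unfold latDisc; rw [g₂_congr h, g₃_congr h]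

theorem latJ_congr {L₁ L₂ : PeriodPair} (h : L₁.lattice = L₂.lattice) : latJ L₁ = latJ L₂ := by
  unfold latJ; rw [g₂_congr h, latDisc_congr h]

theorem latDisc_ne_zero (L : PeriodPair) : latDisc L ≠ 0 := Unif18.disc_ne_zero L

theorem latDisc_eq_curve_Δ (L : PeriodPair) : latDisc L = (Unif18.curve L).Δ :=
  (Unif18.curve_Δ L).symm

/-- The `j`-invariant of the Weierstrass curve of a lattice. -/
theorem curve_j (L : PeriodPair) : (Unif18.curve L).j = latJ L := by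
  have hΔ : (Unif18.curve L).Δ ≠ 0 := Unif18.curve_Δ_ne_zero L
  rw [WeierstrassCurve.j, latJ, latDisc_eq_curve_Δ, Unif18.curve_c₄]
  have : (((Unif18.curve L).Δ' : ℂˣ)⁻¹ : ℂˣ) = ((Unif18.curve L).Δ)⁻¹ := by
    rw [Units.val_inv_eq_inv_val, WeierstrassCurve.coe_Δ']
  rw [this, div_eq_mul_inv]
  ring

/-! ### homogeneity -/

theorem latDisc_scalePair (c : ℂ) (hc : c ≠ 0) (L : PeriodPair) :
    latDisc (scalePair c hc L) = (c ^ 12)⁻¹ * latDisc L := by
  unfold latDisc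
  rw [g₂_scalePair, g₃_scalePair]
  field_simp

theorem latJ_scalePair (c : ℂ) (hc : c ≠ 0) (L : PeriodPair) :
    latJ (scalePair c hc L) = latJ L := by
  have hd := latDisc_ne_zero L
  unfold latJ
  rw [latDisc_scalePair, g₂_scalePair]
  field_simp

/-! ### the lattice `ℤτ + ℤ` -/

/-- `g₂(ℤτ+ℤ)³ - 27 g₃(ℤτ+ℤ)² = (2π)¹² Δ(τ)`. -/
theorem latDisc_pairOfUHP (τ : ℍ) : latDisc (pairOfUHP τ) = (2 * (π : ℂ)) ^ 12 * Δ τ := by
  have h2 := Unif91.three_g₂_pairOfUHP τ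
  have h3 := Unif91.twentyseven_g₃_pairOfUHP τ
  have hd := discriminant_eq_E₄_cube_sub_E₆_sq τ
  have e2 : (pairOfUHP τ).g₂ = 4 / 3 * (π : ℂ) ^ 4 * E₄ τ := by linear_combination (1 / 3 : ℂ) * h2
  have e3 : (pairOfUHP τ).g₃ = 8 / 27 * (π : ℂ) ^ 6 * E₆ τ := by
    linear_combination (1 / 27 : ℂ) * h3
  unfold latDisc
  rw [e2, e3, hd]
  ring

theorem latDisc_scalePair_pairOfUHP (u : ℂ) (hu : u ≠ 0) (τ : ℍ) :
    latDisc (scalePair u hu (pairOfUHP τ)) = (u ^ 12)⁻¹ * ((2 * (π : ℂ)) ^ 12 * Δ τ) := by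
  rw [latDisc_scalePair, latDisc_pairOfUHP]

/-- `j(ℤτ+ℤ) = j(τ)`. -/
theorem latJ_pairOfUHP (τ : ℍ) : latJ (pairOfUHP τ) = jFun τ := by
  have h2 := Unif91.three_g₂_pairOfUHP τ
  have hπ : (π : ℂ) ≠ 0 := Complex.ofReal_ne_zero.mpr Real.pi_ne_zero
  have hΔ : Δ τ ≠ 0 := discriminant_ne_zero τ
  have e2 : (pairOfUHP τ).g₂ = 4 / 3 * (π : ℂ) ^ 4 * E₄ τ := by linear_combination (1 / 3 : ℂ) * h2
  unfold latJ jFun
  rw [latDisc_pairOfUHP, e2]
  field_simp
  ring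

theorem latJ_scalePair_pairOfUHP (u : ℂ) (hu : u ≠ 0) (τ : ℍ) :
    latJ (scalePair u hu (pairOfUHP τ)) = jFun τ := by
  rw [latJ_scalePair, latJ_pairOfUHP]

/-- The Weierstrass curve of `u·(ℤτ+ℤ)` has `j`-invariant `j(τ)`. -/
theorem curve_j_scalePair_pairOfUHP (u : ℂ) (hu : u ≠ 0) (τ : ℍ) :
    (Unif18.curve (scalePair u hu (pairOfUHP τ))).j = jFun τ := by
  rw [curve_j, latJ_scalePair_pairOfUHP]

/-! ### the `p`-isogenous lattice -/

section Isog

variable (u : ℂ) (hu : u ≠ 0) (p : ℕ) [NeZero p] (τ : ℍ)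

theorem div_natCast_ne_zero {u : ℂ} (hu : u ≠ 0) (p : ℕ) [NeZero p] : u / (p : ℂ) ≠ 0 :=
  div_ne_zero hu (Nat.cast_ne_zero.mpr (NeZero.ne p))

/-- The lattice `(u/p)·(ℤ pτ + ℤ) = u·(ℤτ+ℤ) + ℤ·(u/p)`. -/
def isogPair : PeriodPair := scalePair (u / p) (div_natCast_ne_zero hu p) (pairOfUHP (scaleH p τ))

@[simp] theorem isogPair_ω₁ : (isogPair u hu p τ).ω₁ = u * τ := by
  have hp : (p : ℂ) ≠ 0 := Nat.cast_ne_zero.mpr (NeZero.ne p)
  simp only [isogPair, scalePair_ω₁, pairOfUHP_ω₁, coe_scaleH]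
  field_simp

@[simp] theorem isogPair_ω₂ : (isogPair u hu p τ).ω₂ = u / p := by
  simp only [isogPair, scalePair_ω₂, pairOfUHP_ω₂, mul_one]

/-- `x ∈ L' ↔ x ∈ L + ℤ·(u/p)`. -/
theorem mem_isogPair_lattice {x : ℂ} :
    x ∈ (isogPair u hu p τ).lattice ↔
      ∃ k : ℤ, x - k * (u / p) ∈ (scalePair u hu (pairOfUHP τ)).lattice := by
  have hp : (p : ℂ) ≠ 0 := Nat.cast_ne_zero.mpr (NeZero.ne p)
  constructor
  · intro hx
    obtain ⟨m, n, hmn⟩ := PeriodPair.mem_lattice.mp hx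
    rw [isogPair_ω₁, isogPair_ω₂] at hmn
    refine ⟨n, PeriodPair.mem_lattice.mpr ⟨m, 0, ?_⟩⟩
    simp only [scalePair_ω₁, scalePair_ω₂, pairOfUHP_ω₁, pairOfUHP_ω₂]
    rw [← hmn]
    push_cast
    ring
  · rintro ⟨k, hk⟩
    obtain ⟨m, n, hmn⟩ := PeriodPair.mem_lattice.mp hk
    simp only [scalePair_ω₁, scalePair_ω₂, pairOfUHP_ω₁, pairOfUHP_ω₂] at hmn
    refine PeriodPair.mem_lattice.mpr ⟨m, (p : ℤ) * n + k, ?_⟩
    rw [isogPair_ω₁, isogPair_ω₂]
    push_cast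
    have : x = (m : ℂ) * (u * τ) + n * (u * 1) + k * (u / p) := by rw [hmn]; ring
    rw [this]
    field_simp
    ring

theorem lattice_le_isogPair :
    (scalePair u hu (pairOfUHP τ)).lattice ≤ (isogPair u hu p τ).lattice := by
  intro x hx
  exact (mem_isogPair_lattice u hu p τ).mpr ⟨0, by simpa using hx⟩

theorem div_mem_isogPair_lattice : u / p ∈ (isogPair u hu p τ).lattice := by
  have := (isogPair u hu p τ).ω₂_mem_lattice
  rwa [isogPair_ω₂] at this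

theorem isogPair_lattice_eq_sup :
    (isogPair u hu p τ).lattice =
      (scalePair u hu (pairOfUHP τ)).lattice ⊔ Submodule.span ℤ {u / (p : ℂ)} := by
  apply le_antisymm
  · intro x hx
    obtain ⟨k, hk⟩ := (mem_isogPair_lattice u hu p τ).mp hx
    have : x = (x - k * (u / p)) + k • (u / (p : ℂ)) := by
      rw [zsmul_eq_mul]; ring
    rw [this]
    exact Submodule.add_mem_sup hk
      (Submodule.smul_mem _ _ (Submodule.mem_span_singleton_self _))
  · refine sup_le (lattice_le_isogPair u hu p τ) ?_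
    rw [Submodule.span_singleton_le_iff_mem]
    exact div_mem_isogPair_lattice u hu p τ

/-- `Δ(τ)/Δ(pτ) = p¹² · latDisc(L)/latDisc(L')` for `L = u(ℤτ+ℤ)`, `L' = L + ℤ u/p`. -/
theorem discriminant_div_scaleH :
    Δ τ / Δ (scaleH p τ) =
      (p : ℂ) ^ 12 * latDisc (scalePair u hu (pairOfUHP τ)) / latDisc (isogPair u hu p τ) := by
  have hp : (p : ℂ) ≠ 0 := Nat.cast_ne_zero.mpr (NeZero.ne p)
  have hπ : (π : ℂ) ≠ 0 := Complex.ofReal_ne_zero.mpr Real.pi_ne_zero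
  have hΔ : Δ (scaleH p τ) ≠ 0 := discriminant_ne_zero _
  rw [isogPair, latDisc_scalePair_pairOfUHP, latDisc_scalePair_pairOfUHP]
  field_simp

/-- `j(pτ) = latJ(L')`. -/
theorem jFun_scaleH : jFun (scaleH p τ) = latJ (isogPair u hu p τ) := by
  rw [isogPair, latJ_scalePair_pairOfUHP]

/-- Version of `discriminant_div_scaleH` for ANY period pair with lattice `L + ℤ·(u/p)`. -/
theorem discriminant_div_scaleH_of_lattice (L' : PeriodPair)
    (hL' : L'.lattice =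
      (scalePair u hu (pairOfUHP τ)).lattice ⊔ Submodule.span ℤ {u / (p : ℂ)}) :
    Δ τ / Δ (scaleH p τ) =
      (p : ℂ) ^ 12 * latDisc (scalePair u hu (pairOfUHP τ)) / latDisc L' := by
  rw [discriminant_div_scaleH u hu p τ,
    latDisc_congr (hL'.trans (isogPair_lattice_eq_sup u hu p τ).symm)]

/-- Version of `jFun_scaleH` for ANY period pair with lattice `L + ℤ·(u/p)`. -/
theorem jFun_scaleH_of_lattice (L' : PeriodPair)
    (hL' : L'.lattice =
      (scalePair u hu (pairOfUHP τ)).lattice ⊔ Submodule.span ℤ {u / (p : ℂ)}) :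
    jFun (scaleH p τ) = latJ L' := by
  rw [jFun_scaleH u hu p τ,
    latJ_congr (hL'.trans (isogPair_lattice_eq_sup u hu p τ).symm)]

/-- `jdFun p = j(p·)` (the analytic function behind the generator `j_p` of the function field of
`X₀(p)`) at `τ` is the `j`-invariant of the isogenous lattice. -/
theorem jdFun_eq_latJ : jdFun p τ = latJ (isogPair u hu p τ) :=
  jFun_scaleH u hu p τ

theorem jdFun_eq_latJ_of_lattice (L' : PeriodPair)
    (hL' : L'.lattice =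
      (scalePair u hu (pairOfUHP τ)).lattice ⊔ Submodule.span ℤ {u / (p : ℂ)}) :
    jdFun p τ = latJ L' :=
  jFun_scaleH_of_lattice u hu p τ L' hL'

/-- pointwise form of the hypothesis `hL'`. -/
theorem lattice_eq_sup_of_mem_iff (L' : PeriodPair)
    (h : ∀ x : ℂ, x ∈ L'.lattice ↔
      ∃ k : ℤ, x - k * (u / p) ∈ (scalePair u hu (pairOfUHP τ)).lattice) :
    L'.lattice =
      (scalePair u hu (pairOfUHP τ)).lattice ⊔ Submodule.span ℤ {u / (p : ℂ)} := by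
  rw [← isogPair_lattice_eq_sup u hu p τ]
  ext x
  rw [h x, mem_isogPair_lattice]

end Isog

end Fermat.Agent.MAZ.BR1_55
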