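/-
MAZ programme (S15), moduli side, brick BR1 (helper55), part 2: the value of the analytic modular
unit `deltaQuotInv p = Δ(z)/Δ(pz)` (`RED/BASE/DeltaMem19`, analytic realisation of `uqInv p`) in
terms of lattice discriminants.
-/
import Fermat.Agent.MAZ.BR1_55.Disc
import Fermat.Agent.RED.BASE.DeltaMem19

set_option autoImplicit false

open UpperHalfPlane ModularForm
open Fermat.Agent.X0 Fermat.Agent.X0.LatticeEis
open Fermat.Agent.RED.BASE.DeltaMem19

noncomputable section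

namespace Fermat.Agent.MAZ.BR1_55

variable (u : ℂ) (hu : u ≠ 0) (p : ℕ) [NeZero p] (τ : ℍ)

/-- `Δ(τ)/Δ(pτ) = p¹² · latDisc(L)/latDisc(L')`, `L = u(ℤτ+ℤ)`, `L' = L + ℤ·(u/p)`. -/
theorem deltaQuotInv_eq_latDisc :
    deltaQuotInv p τ =
      (p : ℂ) ^ 12 * latDisc (scalePair u hu (pairOfUHP τ)) / latDisc (isogPair u hu p τ) :=
  discriminant_div_scaleH u hu p τ

theorem deltaQuotInv_eq_latDisc_of_lattice (L' : PeriodPair)
    (hL' : L'.lattice =
      (scalePair u hu (pairOfUHP τ)).lattice ⊔ Submodule.span ℤ {u / (p : ℂ)}) :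
    deltaQuotInv p τ =
      (p : ℂ) ^ 12 * latDisc (scalePair u hu (pairOfUHP τ)) / latDisc L' :=
  discriminant_div_scaleH_of_lattice u hu p τ L' hL'

end Fermat.Agent.MAZ.BR1_55
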